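import Mathlib
import Fermat.Prelude.Def_FLTPrelim_FreyPackage
import Fermat.Prelude.Def_FLTPrelim_Ramification
import Fermat.Agent.MUL.Lib.MultRed.E0Val
import Fermat.Agent.MUL.Orig.S05.H75.KerRed
import Fermat.Agent.MUL.Lib.VarChange.Point

section MergeWrap_R38_T_Defs -- from R38/T/Defs.lean

/-!
# Row 38, block T: the Kummer form of "peu ramifie" (owner: helper39)

`PeuKummer W p A`: the `p`-torsion of `W / ℚ` is "peu ramifie" at the place `A` of `Q̄`, in Kummer
form: there is a unit `a` of the maximal unramified extension (fixed by the inertia group of `A`),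
congruent to `1` modulo the maximal ideal, such that every element of the inertia group which fixes
a primitive `p`-th root of unity and one `p`-th root of `a` acts trivially on `W[p]`.

The file contains the definition (the interface between block T and block D of the
blueprint `NOTES/blueprint-row38.md`) and the statements of the leaves of block T in the form in
which the assembly consumes them (`Asm.lean`: `peuKummer_of_leaves`): all on the points of the ORIGINAL integral model
`W / ℤ` over `Q̄`, with `E0 = InE0v A`, `E1 = InG1 A.valuation`.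
-/

set_option autoImplicit false

open WeierstrassCurve WeierstrassCurve.Affine

namespace Fermat.Agent.R38T

open S05H75 Fermat.Agent.MultRed

/-- the Kummer form of "peu ramifie" at `A` for the `p`-torsion of `W` -/
def PeuKummer (W : WeierstrassCurve ℚ) (p : ℕ) (A : ValuationSubring (AlgebraicClosure ℚ)) :
    Prop :=
  ∃ a : AlgebraicClosure ℚ, A.valuation a = 1 ∧ A.valuation (a - 1) < 1 ∧
    (∀ σ ∈ A.inertiaSubgroupIn ℚ, σ a = a) ∧
    ∀ α ζ : AlgebraicClosure ℚ, α ^ p = a → IsPrimitiveRoot ζ p →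
      ∀ σ ∈ A.inertiaSubgroupIn ℚ, σ ζ = ζ → σ α = α →
        ∀ x : (W⁄(AlgebraicClosure ℚ)).Point, p • x = 0 → σ • x = x

/-- the statement of block T for a Frey package -/
def PeuFreyStatement : Prop :=
  ∀ (P : FreyPackage), (P.p : ℤ) ∣ P.a * P.b * P.c →
    ∀ (A : ValuationSubring (AlgebraicClosure ℚ)), A.LiesOverPrime P.p →
      PeuKummer P.freyCurve P.p A

section Leaves

variable (W : WeierstrassCurve ℤ) (p : ℕ) (A : ValuationSubring (AlgebraicClosure ℚ))

/-- leaves PT + MATCH: a point `X` fixed by inertia with `p • X ∈ E0`, such that every point of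
order `p` outside the kernel of reduction has a multiple (prime to `p`) in `X + E0` -/
def LeafPT : Prop :=
  ∃ X : ((W.map (Int.castRingHom ℚ))⁄(AlgebraicClosure ℚ)).Point,
    (∀ σ ∈ A.inertiaSubgroupIn ℚ, σ • X = X) ∧ InE0v A (p • X) ∧
    ∀ x : ((W.map (Int.castRingHom ℚ))⁄(AlgebraicClosure ℚ)).Point, p • x = 0 →
      ¬ InG1 A.valuation x → ∃ j : ℕ, ¬ p ∣ j ∧ InE0v A (X - j • x)

/-- leaf KILL: every point of `E0` has a multiple, prime to `p`, in the kernel of reduction -/
def LeafKILL : Prop :=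
  ∀ Y : ((W.map (Int.castRingHom ℚ))⁄(AlgebraicClosure ℚ)).Point, InE0v A Y →
    ∃ m : ℕ, ¬ p ∣ m ∧ InG1 A.valuation (m • Y)

/-- leaf NOPT: `E0 / E1` has no `p`-torsion -/
def LeafNOPT : Prop :=
  ∀ Y : ((W.map (Int.castRingHom ℚ))⁄(AlgebraicClosure ℚ)).Point, InE0v A Y →
    InG1 A.valuation (p • Y) → InG1 A.valuation Y

/-- leaves KUM + LINE: the approximate character `w` on the kernel of reduction and the two
Kummer statements -/
def LeafKUM : Prop :=
  ∃ w : ((W.map (Int.castRingHom ℚ))⁄(AlgebraicClosure ℚ)).Point → AlgebraicClosure ℚ,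
    (∀ Q : ((W.map (Int.castRingHom ℚ))⁄(AlgebraicClosure ℚ)).Point,
      InG1 A.valuation Q → A.valuation (w Q) = 1 ∧ A.valuation (w Q - 1) < 1) ∧
    (∀ σ ∈ A.inertiaSubgroupIn ℚ, ∀ Q : ((W.map (Int.castRingHom ℚ))⁄(AlgebraicClosure ℚ)).Point,
      InG1 A.valuation Q → w (σ • Q) = σ (w Q)) ∧
    (∀ Q : ((W.map (Int.castRingHom ℚ))⁄(AlgebraicClosure ℚ)).Point,
      InG1 A.valuation Q → ∀ σ ∈ A.inertiaSubgroupIn ℚ, σ • (p • Q) = p • Q →
      ∀ ζ α : AlgebraicClosure ℚ, IsPrimitiveRoot ζ p → σ ζ = ζ → α ^ p = w (p • Q) → σ α = α →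
        σ • Q = Q) ∧
    (∀ T : ((W.map (Int.castRingHom ℚ))⁄(AlgebraicClosure ℚ)).Point,
      InG1 A.valuation T → p • T = 0 → ∀ σ ∈ A.inertiaSubgroupIn ℚ,
      ∀ ζ : AlgebraicClosure ℚ, IsPrimitiveRoot ζ p → σ ζ = ζ → σ • T = T)

end Leaves

end Fermat.Agent.R38T
end MergeWrap_R38_T_Defs
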